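/-
S18 / wave 4 (helper53): FIBRES core (Mathlib only; no `Place`, no `Setup`).

Dedekind extension `B / R` (`B` finite over `R`, the integral closure of `R` in `F`, `L = Frac R`,
`F = Frac B`).  For a height-one prime `v` write `ordV v E x = - log (v.valuation E x)`.

* `primesAbove B p`, `finite_primesAbove` : the height-one primes of `B` above `p`.
* `ordV_norm` **(NV1, core of FIB5)** : `ord_p (N_{F/L} f) = ∑_{P | p} f(P|p) * ord_P f`.
* `exists_denominator` **(core of F3)** : `f` regular above `p` ⟹ `s * f ∈ B` for some `s ∈ R ∖ p`.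
* `valuation_trace_le_one`, `valuation_norm_le_one` **(NV2, core of FIB8)** : traces and norms of
  functions regular above `p` are regular at `p`.
* `exists_basis_regular` **(NV3, core of FIB7)** : for a PID `R`, one `L`-basis of `F` inside `B`
  is a local basis at every prime `p`.
-/
import Mathlib

set_option autoImplicit false

open IsDedekindDomain

noncomputable section

namespace Fermat.Agent.S18.H53

section Ideals

open scoped Classical in
theorem count_top {S : Type*} [CommRing S] [IsDedekindDomain S] (q : Ideal S)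
    (hq : Irreducible (Associates.mk q)) :
    (Associates.mk q).count (Associates.mk (⊤ : Ideal S)).factors = 0 := by
  rw [← Ideal.one_eq_top, Associates.mk_one, Associates.factors_one]
  exact Associates.count_zero hq

theorem irreducible_mk_of_isPrime {S : Type*} [CommRing S] [IsDedekindDomain S] {q : Ideal S}
    (hq : q ≠ ⊥) (hq' : q.IsPrime) : Irreducible (Associates.mk q) :=
  (Associates.irreducible_mk).mpr (Ideal.prime_of_isPrime hq hq').irreducible

variable {R : Type*} [CommRing R] [IsDedekindDomain R]
  {B : Type*} [CommRing B] [IsDedekindDomain B] [Algebra R B] [Module.Finite R B]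
  [Module.IsTorsionFree R B] [PerfectField (FractionRing R)]

omit [Module.Finite R B] [PerfectField (FractionRing R)] in
theorem ne_bot_of_mem_primesOver {p : Ideal R} (hp : p ≠ ⊥) {P : Ideal B}
    (hP : P ∈ p.primesOver B) : P ≠ ⊥ := by
  rintro rfl
  have := hP.2
  rw [Ideal.liesOver_iff, Ideal.under_bot] at this
  exact hp this

open scoped Classical in
/-- The multiplicity of a maximal ideal `p` in the relative norm of an ideal `I` of `B`. -/
theorem count_relNorm (p : Ideal R) [p.IsMaximal] (hp : p ≠ ⊥) (I : Ideal B) (hI : I ≠ ⊥) :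
    (Associates.mk p).count (Associates.mk (Ideal.relNorm R I)).factors =
      ∑ P ∈ (IsDedekindDomain.primesOver_finite p B).toFinset,
        P.inertiaDeg R * (Associates.mk P).count (Associates.mk I).factors := by
  have hpirr : Irreducible (Associates.mk p) := irreducible_mk_of_isPrime hp inferInstance
  induction I using UniqueFactorizationMonoid.induction_on_prime with
  | h₁ => exact absurd rfl hI
  | h₂ x hx =>
    have hx' : x = ⊤ := Ideal.isUnit_iff.mp hx
    subst hx'
    rw [Ideal.relNorm_top, count_top p hpirr]
    symm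
    apply Finset.sum_eq_zero
    intro P hP
    rw [Set.Finite.mem_toFinset] at hP
    rw [count_top P (irreducible_mk_of_isPrime (ne_bot_of_mem_primesOver hp hP) hP.1), mul_zero]
  | h₃ a P' ha hP' ih =>
    have hP'ne : P' ≠ ⊥ := hP'.ne_zero
    have hP'prime : P'.IsPrime := Ideal.isPrime_of_prime hP'
    have hP'max : P'.IsMaximal := hP'prime.isMaximal hP'ne
    have hP'irr : Irreducible (Associates.mk P') := irreducible_mk_of_isPrime hP'ne hP'prime
    have ha' : a ≠ ⊥ := ha
    specialize ih ha'
    set q : Ideal R := P'.under R with hq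
    have hqmax : q.IsMaximal := Ideal.isMaximal_comap_of_isIntegral_of_isMaximal P'
    have hqne : q ≠ ⊥ := by
      intro h
      exact hP'ne (Ideal.eq_bot_of_comap_eq_bot h)
    have hqirr : Irreducible (Associates.mk q) := irreducible_mk_of_isPrime hqne inferInstance
    have hnorm : Ideal.relNorm R P' = q ^ P'.inertiaDeg R :=
      Ideal.relNorm_eq_pow_of_isMaximal P' q
    have hna : Ideal.relNorm R a ≠ ⊥ := by
      rw [ne_eq, Ideal.relNorm_eq_bot_iff]; exact ha'
    have hnP : Ideal.relNorm R P' ≠ ⊥ := by
      rw [ne_eq, Ideal.relNorm_eq_bot_iff]; exact hP'ne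
    rw [map_mul, ← Associates.mk_mul_mk, Associates.count_mul (Associates.mk_ne_zero.mpr hnP)
      (Associates.mk_ne_zero.mpr hna) hpirr, ih, hnorm, Associates.mk_pow,
      Associates.count_pow (Associates.mk_ne_zero.mpr hqne) hpirr]
    have hsplit : ∀ P ∈ (IsDedekindDomain.primesOver_finite p B).toFinset,
        P.inertiaDeg R * (Associates.mk P).count (Associates.mk (P' * a)).factors =
          P.inertiaDeg R * (Associates.mk P).count (Associates.mk P').factors +
            P.inertiaDeg R * (Associates.mk P).count (Associates.mk a).factors := by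
      intro P hP
      rw [Set.Finite.mem_toFinset] at hP
      rw [← Associates.mk_mul_mk, Associates.count_mul (Associates.mk_ne_zero.mpr hP'ne)
        (Associates.mk_ne_zero.mpr ha')
        (irreducible_mk_of_isPrime (ne_bot_of_mem_primesOver hp hP) hP.1), mul_add]
    rw [Finset.sum_congr rfl hsplit, Finset.sum_add_distrib]
    congr 1
    by_cases hqp : q = p
    · have hmem : P' ∈ (IsDedekindDomain.primesOver_finite p B).toFinset := by
        rw [Set.Finite.mem_toFinset]
        exact ⟨hP'prime, (Ideal.liesOver_iff _ _).mpr hqp.symm⟩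
      rw [Finset.sum_eq_single_of_mem P' hmem, hqp, Associates.count_self hpirr,
        Associates.count_self hP'irr]
      intro P hP hne
      rw [Set.Finite.mem_toFinset] at hP
      rw [Associates.count_eq_zero_of_ne
        (irreducible_mk_of_isPrime (ne_bot_of_mem_primesOver hp hP) hP.1) hP'irr, mul_zero]
      intro h
      exact hne (Associates.mk_injective h)
    · rw [Associates.count_eq_zero_of_ne hpirr hqirr, mul_zero]
      · symm
        apply Finset.sum_eq_zero
        intro P hP
        rw [Set.Finite.mem_toFinset] at hP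
        rw [Associates.count_eq_zero_of_ne
          (irreducible_mk_of_isPrime (ne_bot_of_mem_primesOver hp hP) hP.1) hP'irr, mul_zero]
        intro h
        have hPP' : P = P' := Associates.mk_injective h
        apply hqp
        have := hP.2
        rw [Ideal.liesOver_iff, hPP'] at this
        exact this.symm
      · intro h
        exact hqp (Associates.mk_injective h).symm

end Ideals

section Elements

/-- The additive valuation attached to a height-one prime: `ordV v x = - log (v x)`. -/
def ordV {S : Type*} [CommRing S] [IsDedekindDomain S] (v : HeightOneSpectrum S)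
    (E : Type*) [Field E] [Algebra S E] [IsFractionRing S E] (x : E) : ℤ :=
  -(WithZero.log (v.valuation E x))

theorem ordV_mul {S : Type*} [CommRing S] [IsDedekindDomain S] (v : HeightOneSpectrum S)
    {E : Type*} [Field E] [Algebra S E] [IsFractionRing S E] {x y : E} (hx : x ≠ 0) (hy : y ≠ 0) :
    ordV v E (x * y) = ordV v E x + ordV v E y := by
  unfold ordV
  rw [map_mul, WithZero.log_mul ((Valuation.ne_zero_iff _).mpr hx)
    ((Valuation.ne_zero_iff _).mpr hy)]
  ring

theorem ordV_inv {S : Type*} [CommRing S] [IsDedekindDomain S] (v : HeightOneSpectrum S)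
    {E : Type*} [Field E] [Algebra S E] [IsFractionRing S E] (x : E) :
    ordV v E x⁻¹ = -ordV v E x := by
  unfold ordV
  rw [map_inv₀, WithZero.log_inv]

theorem ordV_div {S : Type*} [CommRing S] [IsDedekindDomain S] (v : HeightOneSpectrum S)
    {E : Type*} [Field E] [Algebra S E] [IsFractionRing S E] {x y : E} (hx : x ≠ 0) (hy : y ≠ 0) :
    ordV v E (x / y) = ordV v E x - ordV v E y := by
  rw [div_eq_mul_inv, ordV_mul v hx (inv_ne_zero hy), ordV_inv]
  ring

open scoped Classical in
theorem ordV_algebraMap {S : Type*} [CommRing S] [IsDedekindDomain S] (v : HeightOneSpectrum S)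
    {E : Type*} [Field E] [Algebra S E] [IsFractionRing S E] {b : S} (hb : b ≠ 0) :
    ordV v E (algebraMap S E b) =
      ((Associates.mk v.asIdeal).count (Associates.mk (Ideal.span {b})).factors : ℤ) := by
  unfold ordV
  rw [HeightOneSpectrum.valuation_of_algebraMap, HeightOneSpectrum.intValuation_if_neg v hb,
    WithZero.log_exp, neg_neg]

theorem ordV_nonneg_iff {S : Type*} [CommRing S] [IsDedekindDomain S] (v : HeightOneSpectrum S)
    {E : Type*} [Field E] [Algebra S E] [IsFractionRing S E] {x : E} (hx : x ≠ 0) :
    0 ≤ ordV v E x ↔ v.valuation E x ≤ 1 := by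
  unfold ordV
  rw [← WithZero.log_le_log ((Valuation.ne_zero_iff _).mpr hx) one_ne_zero, WithZero.log_one]
  constructor <;> intro h <;> linarith

theorem ordV_pos_iff {S : Type*} [CommRing S] [IsDedekindDomain S] (v : HeightOneSpectrum S)
    {E : Type*} [Field E] [Algebra S E] [IsFractionRing S E] {x : E} (hx : x ≠ 0) :
    0 < ordV v E x ↔ v.valuation E x < 1 := by
  unfold ordV
  rw [← WithZero.log_lt_log ((Valuation.ne_zero_iff _).mpr hx) one_ne_zero, WithZero.log_one]
  constructor <;> intro h <;> linarith

theorem ordV_zero {S : Type*} [CommRing S] [IsDedekindDomain S] (v : HeightOneSpectrum S)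
    {E : Type*} [Field E] [Algebra S E] [IsFractionRing S E] : ordV v E 0 = 0 := by
  simp [ordV]

theorem ordV_one {S : Type*} [CommRing S] [IsDedekindDomain S] (v : HeightOneSpectrum S)
    {E : Type*} [Field E] [Algebra S E] [IsFractionRing S E] : ordV v E 1 = 0 := by
  simp [ordV]

theorem ordV_pow {S : Type*} [CommRing S] [IsDedekindDomain S] (v : HeightOneSpectrum S)
    {E : Type*} [Field E] [Algebra S E] [IsFractionRing S E] (x : E) (n : ℕ) :
    ordV v E (x ^ n) = n * ordV v E x := by
  unfold ordV
  rw [map_pow, WithZero.log_pow]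
  simp

theorem ordV_algebraMap_nonneg {S : Type*} [CommRing S] [IsDedekindDomain S]
    (v : HeightOneSpectrum S) {E : Type*} [Field E] [Algebra S E] [IsFractionRing S E] (b : S) :
    0 ≤ ordV v E (algebraMap S E b) := by
  rcases eq_or_ne b 0 with rfl | hb
  · simp [ordV_zero]
  · rw [ordV_nonneg_iff v (by simpa using hb)]
    exact v.valuation_le_one b

theorem ordV_algebraMap_pos {S : Type*} [CommRing S] [IsDedekindDomain S]
    (v : HeightOneSpectrum S) {E : Type*} [Field E] [Algebra S E] [IsFractionRing S E] {b : S}
    (hb : b ≠ 0) (hmem : b ∈ v.asIdeal) : 0 < ordV v E (algebraMap S E b) := by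
  rw [ordV_pos_iff v (by simpa using hb)]
  exact (v.valuation_lt_one_iff_mem b).mpr hmem

theorem ordV_prod_algebraMap_nonneg {S : Type*} [CommRing S] [IsDedekindDomain S]
    (v : HeightOneSpectrum S) {E : Type*} [Field E] [Algebra S E] [IsFractionRing S E]
    {ι : Type*} (T : Finset ι) (σ : ι → S) :
    0 ≤ ordV v E (algebraMap S E (∏ i ∈ T, σ i)) :=
  ordV_algebraMap_nonneg v _

end Elements

section Main

variable {R : Type*} [CommRing R] [IsDedekindDomain R]
  {B : Type*} [CommRing B] [IsDedekindDomain B] [Algebra R B] [Module.Finite R B]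
  [Module.IsTorsionFree R B]

variable (B) in
/-- The height-one primes of `B` above a height-one prime of `R`. -/
def primesAbove (p : HeightOneSpectrum R) : Set (HeightOneSpectrum B) :=
  {P | P.asIdeal.under R = p.asIdeal}

theorem finite_primesAbove (p : HeightOneSpectrum R) : (primesAbove B p).Finite := by
  have : p.asIdeal.IsMaximal := p.isMaximal
  refine Set.Finite.of_finite_image (f := HeightOneSpectrum.asIdeal)
    ((IsDedekindDomain.primesOver_finite p.asIdeal B).subset ?_) ?_
  · rintro _ ⟨P, hP, rfl⟩
    exact ⟨P.isPrime, (Ideal.liesOver_iff _ _).mpr hP.symm⟩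
  · intro P _ Q _ h
    exact HeightOneSpectrum.ext h

theorem sum_primesOver_eq (p : HeightOneSpectrum R) (g : Ideal B → ℤ) :
    haveI : p.asIdeal.IsMaximal := p.isMaximal
    ∑ P ∈ (IsDedekindDomain.primesOver_finite p.asIdeal B).toFinset, g P =
      ∑ P ∈ (finite_primesAbove (B := B) p).toFinset, g P.asIdeal := by
  have : p.asIdeal.IsMaximal := p.isMaximal
  symm
  refine Finset.sum_bij (fun P _ => P.asIdeal) ?_ ?_ ?_ ?_
  · intro P hP
    rw [Set.Finite.mem_toFinset] at hP ⊢
    exact ⟨P.isPrime, (Ideal.liesOver_iff _ _).mpr hP.symm⟩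
  · intro P _ Q _ h
    exact HeightOneSpectrum.ext h
  · intro P hP
    rw [Set.Finite.mem_toFinset] at hP
    refine ⟨⟨P, hP.1, ne_bot_of_mem_primesOver p.ne_bot hP⟩, ?_, rfl⟩
    rw [Set.Finite.mem_toFinset]
    exact ((Ideal.liesOver_iff _ _).mp hP.2).symm
  · intro P _
    rfl

variable [PerfectField (FractionRing R)]
  {L : Type*} [Field L] [Algebra R L] [IsFractionRing R L]
  {F : Type*} [Field F] [Algebra L F] [Algebra R F] [IsScalarTower R L F]
  [Algebra B F] [IsScalarTower R B F] [IsIntegralClosure B R F] [IsFractionRing B F]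
  [FiniteDimensional L F]

/-- (NV1), integral elements. -/
theorem ordV_norm_algebraMap (p : HeightOneSpectrum R) {b : B} (hb : b ≠ 0) :
    ordV p L (Algebra.norm L (algebraMap B F b)) =
      ∑ P ∈ (finite_primesAbove (B := B) p).toFinset,
        (P.asIdeal.inertiaDeg R : ℤ) * ordV P F (algebraMap B F b) := by
  classical
  have : p.asIdeal.IsMaximal := p.isMaximal
  have hn : Algebra.intNorm R B b ≠ 0 := Algebra.intNorm_ne_zero.mpr hb
  rw [← Algebra.algebraMap_intNorm (A := R) (K := L) (L := F) (B := B) b, ordV_algebraMap p hn,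
    ← Ideal.relNorm_singleton, count_relNorm p.asIdeal p.ne_bot _
      (by rw [ne_eq, Ideal.span_singleton_eq_bot]; exact hb)]
  push_cast
  rw [sum_primesOver_eq p (fun P => (P.inertiaDeg R : ℤ) *
    ((Associates.mk P).count (Associates.mk (Ideal.span {b})).factors : ℤ))]
  refine Finset.sum_congr rfl fun P _ => ?_
  rw [ordV_algebraMap P hb]

/-- **(NV1)** The order of a norm at `p` is the sum of the orders at the primes above `p`,
weighted by the inertia degrees. -/
theorem ordV_norm (p : HeightOneSpectrum R) {f : F} (hf : f ≠ 0) :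
    ordV p L (Algebra.norm L f) =
      ∑ P ∈ (finite_primesAbove (B := B) p).toFinset,
        (P.asIdeal.inertiaDeg R : ℤ) * ordV P F f := by
  obtain ⟨b₁, b₂, hb₂, rfl⟩ := IsFractionRing.div_surjective (A := B) f
  have hb₂0 : b₂ ≠ 0 := nonZeroDivisors.ne_zero hb₂
  have hb₁0 : b₁ ≠ 0 := by
    rintro rfl
    simp at hf
  have h1 : algebraMap B F b₁ ≠ 0 := by
    simpa using hb₁0
  have h2 : algebraMap B F b₂ ≠ 0 := by
    simpa using hb₂0
  have hN1 : Algebra.norm L (algebraMap B F b₁) ≠ 0 := Algebra.norm_ne_zero_iff.mpr h1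
  have hN2 : Algebra.norm L (algebraMap B F b₂) ≠ 0 := Algebra.norm_ne_zero_iff.mpr h2
  have hdiv : Algebra.norm L (algebraMap B F b₁ / algebraMap B F b₂) =
      Algebra.norm L (algebraMap B F b₁) / Algebra.norm L (algebraMap B F b₂) := by
    rw [eq_div_iff hN2, ← map_mul, div_mul_cancel₀ _ h2]
  rw [hdiv, ordV_div p hN1 hN2, ordV_norm_algebraMap p hb₁0, ordV_norm_algebraMap p hb₂0,
    ← Finset.sum_sub_distrib]
  refine Finset.sum_congr rfl fun P _ => ?_
  rw [ordV_div P h1 h2]
  ring

end Main

section Regular

variable {R : Type*} [CommRing R] [IsDedekindDomain R]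
  {B : Type*} [CommRing B] [IsDedekindDomain B] [Algebra R B] [Module.Finite R B]
  [Module.IsTorsionFree R B]
  {F : Type*} [Field F] [Algebra R F] [Algebra B F] [IsScalarTower R B F] [IsFractionRing B F]

/-- **Denominators prime to `p`**: a function regular at all primes above `p` becomes integral
after multiplication by some `s ∈ R ∖ p`. -/
theorem exists_denominator (p : HeightOneSpectrum R) (f : F)
    (hreg : ∀ P ∈ primesAbove B p, P.valuation F f ≤ 1) :
    ∃ s : R, s ∉ p.asIdeal ∧ ∃ b : B, algebraMap B F b = algebraMap R F s * f := by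
  classical
  rcases eq_or_ne f 0 with rfl | hf
  · exact ⟨1, fun h => p.isPrime.ne_top ((Ideal.eq_top_iff_one _).mpr h), 0, by simp⟩
  set T : Finset (HeightOneSpectrum B) :=
    (HeightOneSpectrum.Support.finite (R := B) f).toFinset with hT
  have key : ∀ Q : HeightOneSpectrum B, ∃ σ : R, Q ∈ T →
      (algebraMap R B σ ∈ Q.asIdeal ∧ σ ∉ p.asIdeal) := by
    intro Q
    by_cases hQ : Q ∈ T
    · have hQ' : 1 < Q.valuation F f := by
        rw [hT, Set.Finite.mem_toFinset] at hQ
        exact hQ
      have hq : (Q.asIdeal.under R).IsMaximal :=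
        haveI := Q.isMaximal
        Ideal.isMaximal_comap_of_isIntegral_of_isMaximal Q.asIdeal
      have hne : ¬ Q.asIdeal.under R ≤ p.asIdeal := by
        intro hle
        have heq : Q.asIdeal.under R = p.asIdeal := hq.eq_of_le p.isPrime.ne_top hle
        exact absurd (hreg Q heq) (not_le.mpr hQ')
      obtain ⟨σ, hσ1, hσ2⟩ := SetLike.not_le_iff_exists.mp hne
      exact ⟨σ, fun _ => ⟨hσ1, hσ2⟩⟩
    · exact ⟨0, fun h => absurd h hQ⟩
  choose σ hσ using key
  set N : ℕ := ∑ Q ∈ T, (WithZero.log (Q.valuation F f)).toNat with hN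
  set s : R := (∏ Q ∈ T, σ Q) ^ N with hs
  have hprod : ∏ Q ∈ T, σ Q ∉ p.asIdeal := by
    intro h1
    obtain ⟨Q, hQ, hQ'⟩ := (p.isPrime.prod_mem_iff).mp h1
    exact (hσ Q hQ).2 hQ'
  have hsp : s ∉ p.asIdeal := fun h => hprod (p.isPrime.mem_of_pow_mem N h)
  have hs0 : s ≠ 0 := fun h => hsp (h ▸ p.asIdeal.zero_mem)
  have hprod0 : ∏ Q ∈ T, σ Q ≠ 0 := fun h => hprod (h ▸ p.asIdeal.zero_mem)
  have hinj : Function.Injective (algebraMap R B) := FaithfulSMul.algebraMap_injective R B
  have hx : algebraMap R F s = algebraMap B F (algebraMap R B s) :=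
    IsScalarTower.algebraMap_apply R B F s
  have hsB0 : algebraMap R B s ≠ 0 := (map_ne_zero_iff _ hinj).mpr hs0
  refine ⟨s, hsp, ?_⟩
  have hall : ∀ P' : HeightOneSpectrum B, P'.valuation F (algebraMap R F s * f) ≤ 1 := by
    intro P'
    have hx0 : algebraMap B F (algebraMap R B s) ≠ 0 := by simpa using hsB0
    rw [hx, ← ordV_nonneg_iff P' (mul_ne_zero hx0 hf), ordV_mul P' hx0 hf]
    by_cases hP' : P' ∈ T
    · have h1 : (0 : ℤ) < ordV P' F (algebraMap B F (algebraMap R B (∏ Q ∈ T, σ Q))) := by
        have hne0 : algebraMap R B (∏ Q ∈ T, σ Q) ≠ 0 := (map_ne_zero_iff _ hinj).mpr hprod0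
        apply ordV_algebraMap_pos P' hne0
        rw [map_prod]
        exact P'.asIdeal.mem_of_dvd
          (Finset.dvd_prod_of_mem (fun Q => algebraMap R B (σ Q)) hP') (hσ P' hP').1
      have h2 : ordV P' F (algebraMap B F (algebraMap R B s)) =
          N * ordV P' F (algebraMap B F (algebraMap R B (∏ Q ∈ T, σ Q))) := by
        rw [hs, map_pow, map_pow, ordV_pow]
      have h3 : WithZero.log (P'.valuation F f) ≤ N := by
        calc WithZero.log (P'.valuation F f) ≤ ((WithZero.log (P'.valuation F f)).toNat : ℤ) :=
              Int.self_le_toNat _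
          _ ≤ (N : ℤ) := by
              rw [hN]
              exact_mod_cast Finset.single_le_sum
                (f := fun Q : HeightOneSpectrum B => (WithZero.log (Q.valuation F f)).toNat)
                (fun _ _ => Nat.zero_le _) hP'
      have h4 : ordV P' F f = -WithZero.log (P'.valuation F f) := rfl
      rw [h2, h4]
      nlinarith
    · have hle : P'.valuation F f ≤ 1 := by
        rw [hT, Set.Finite.mem_toFinset] at hP'
        exact not_lt.mp hP'
      have h1 := (ordV_nonneg_iff P' hf).mpr hle
      have h2 := ordV_algebraMap_nonneg P' (E := F) (algebraMap R B s)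
      linarith
  obtain ⟨b, hb⟩ := HeightOneSpectrum.mem_integers_of_valuation_le_one F _ hall
  exact ⟨b, hb⟩

variable {L : Type*} [Field L] [Algebra R L] [IsFractionRing R L] [Algebra L F]
  [IsScalarTower R L F] [IsIntegralClosure B R F] [FiniteDimensional L F]

omit [Module.Finite R B] [Module.IsTorsionFree R B] [IsFractionRing B F] [IsDedekindDomain B]
  [IsDedekindDomain R] [Algebra R B] [IsScalarTower R B F] in
theorem isIntegral_algebraMap_closure (b : B) : IsIntegral R (algebraMap B F b) :=
  (IsIntegralClosure.isIntegral_iff (A := B)).mpr ⟨b, rfl⟩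

omit [IsIntegralClosure B R F] [FiniteDimensional L F] in
theorem valuation_algebraMap_eq_one (p : HeightOneSpectrum R) {s : R} (hs : s ∉ p.asIdeal) :
    p.valuation L (algebraMap R L s) = 1 := by
  rw [HeightOneSpectrum.valuation_of_algebraMap]
  exact HeightOneSpectrum.intValuation_eq_one_iff.mpr hs

/-- **(NV2), trace**: the trace of a function regular above `p` is regular at `p`. -/
theorem valuation_trace_le_one (p : HeightOneSpectrum R) (f : F)
    (hreg : ∀ P ∈ primesAbove B p, P.valuation F f ≤ 1) :
    p.valuation L (Algebra.trace L F f) ≤ 1 := by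
  obtain ⟨s, hs, b, hb⟩ := exists_denominator p f hreg
  have hint : IsIntegral R (Algebra.trace L F (algebraMap B F b)) :=
    Algebra.isIntegral_trace (isIntegral_algebraMap_closure b)
  obtain ⟨r, hr⟩ := IsIntegrallyClosed.isIntegral_iff.mp hint
  have h1 : algebraMap B F b = algebraMap R L s • f := by
    rw [hb, Algebra.smul_def, ← IsScalarTower.algebraMap_apply]
  rw [h1, map_smul, smul_eq_mul] at hr
  have h2 := congrArg (p.valuation L) hr
  rw [map_mul, valuation_algebraMap_eq_one p hs, one_mul] at h2
  rw [← h2]
  exact p.valuation_le_one r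

/-- **(NV2), norm**: the norm of a function regular above `p` is regular at `p`. -/
theorem valuation_norm_le_one (p : HeightOneSpectrum R) (f : F)
    (hreg : ∀ P ∈ primesAbove B p, P.valuation F f ≤ 1) :
    p.valuation L (Algebra.norm L f) ≤ 1 := by
  obtain ⟨s, hs, b, hb⟩ := exists_denominator p f hreg
  have hint : IsIntegral R (Algebra.norm L (algebraMap B F b)) :=
    Algebra.isIntegral_norm L (isIntegral_algebraMap_closure b)
  obtain ⟨r, hr⟩ := IsIntegrallyClosed.isIntegral_iff.mp hint
  have h1 : algebraMap B F b = algebraMap L F (algebraMap R L s) * f := by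
    rw [hb, ← IsScalarTower.algebraMap_apply]
  rw [h1, map_mul, Algebra.norm_algebraMap] at hr
  have h2 := congrArg (p.valuation L) hr
  rw [map_mul, map_pow, valuation_algebraMap_eq_one p hs, one_pow, one_mul] at h2
  rw [← h2]
  exact p.valuation_le_one r

/-- **(NV3) Integral basis = local basis at every prime** (`R` a PID): there is an `L`-basis
`θ` of `F` inside `B` such that every function regular above a prime `p` has `p`-regular
coordinates. -/
theorem exists_basis_regular [IsPrincipalIdealRing R] [Algebra.IsSeparable L F] :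
    ∃ θ : Fin (Module.finrank L F) → F, LinearIndependent L θ ∧
      (∀ i, ∃ b : B, algebraMap B F b = θ i) ∧
      ∀ (p : HeightOneSpectrum R) (f : F), (∀ P ∈ primesAbove B p, P.valuation F f ≤ 1) →
        ∃ r : Fin (Module.finrank L F) → L, f = ∑ i, r i • θ i ∧
          ∀ i, p.valuation L (r i) ≤ 1 := by
  have : Module.IsTorsionFree R F := by
    rw [Module.isTorsionFree_iff_algebraMap_injective, IsScalarTower.algebraMap_eq R L F]
    exact (algebraMap L F).injective.comp (IsFractionRing.injective R L)
  have : Module.Free R B := IsIntegralClosure.module_free R L F B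
  have hrank : Module.finrank R B = Module.finrank L F := IsIntegralClosure.rank R L F B
  let bas : Module.Basis (Fin (Module.finrank L F)) R B := Module.finBasisOfFinrankEq R B hrank
  have : IsLocalization (Algebra.algebraMapSubmonoid B (nonZeroDivisors R)) F :=
    IsIntegralClosure.isLocalization R L F B
  have hli : LinearIndependent L (fun i => algebraMap B F (bas i)) :=
    LinearIndependent.localization_localization L (nonZeroDivisors R) F bas.linearIndependent
  refine ⟨fun i => algebraMap B F (bas i), hli, fun i => ⟨bas i, rfl⟩, ?_⟩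
  intro p f hreg
  obtain ⟨s, hs, b, hb⟩ := exists_denominator p f hreg
  have hs0 : algebraMap R L s ≠ 0 := by
    intro h
    have := valuation_algebraMap_eq_one (L := L) p hs
    rw [h, map_zero] at this
    exact zero_ne_one this
  refine ⟨fun i => algebraMap R L (bas.repr b i) / algebraMap R L s, ?_, ?_⟩
  · have h1 : algebraMap B F b = ∑ i, algebraMap R L (bas.repr b i) • algebraMap B F (bas i) := by
      conv_lhs => rw [← bas.sum_repr b]
      rw [map_sum]
      refine Finset.sum_congr rfl fun i _ => ?_
      rw [Algebra.smul_def, map_mul, Algebra.smul_def, ← IsScalarTower.algebraMap_apply,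
        ← IsScalarTower.algebraMap_apply]
    have h2 : algebraMap R F s = algebraMap L F (algebraMap R L s) :=
      IsScalarTower.algebraMap_apply R L F s
    have h3 : f = (algebraMap R L s)⁻¹ • algebraMap B F b := by
      rw [hb, h2, Algebra.smul_def, map_inv₀, ← mul_assoc,
        inv_mul_cancel₀ (by simpa using hs0), one_mul]
    rw [h3, h1, Finset.smul_sum]
    refine Finset.sum_congr rfl fun i _ => ?_
    simp only [smul_smul, div_eq_inv_mul]
  · intro i
    rw [map_div₀, valuation_algebraMap_eq_one p hs, div_one]
    exact p.valuation_le_one _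

end Regular

end Fermat.Agent.S18.H53
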