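/-
S18 / wave 4 (helper53): FIB5 = NORM-ORDER formula in `Place` form, on top of helper42's
`x`-chart (`Fermat.Agent.S18.H42`) and the Mathlib-only core `Fermat.Agent.S18.H53.ordV_norm`.

* `norm_order` : for `f ≠ 0` and `N_{F/K(x)}(f) * q(x) = p(x)`,
    `rootMultiplicity c p - rootMultiplicity c q = ∑ᶠ P over c, P.ord f`.
-/
import Mathlib
import Fermat.Agent.S18.H42.Fibres
import Fermat.Agent.S18.H53.NormVal

set_option autoImplicit false
set_option linter.unusedSectionVars false
set_option linter.style.haveILetI false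

open AlgebraicCurve IsDedekindDomain Polynomial IntermediateField
open scoped IntermediateField.algebraAdjoinAdjoin

namespace Fermat.Agent.S18.H53

open Fermat.Agent.S24.H52 Fermat.Agent.S18.H42
open scoped Fermat.Agent.S18.H42.ChartInst

noncomputable section

variable (K : Type*) {F : Type*} [Field K] [Field F] [Algebra K F] (x : F)
variable [hx : Fact (Transcendental K x)] [FiniteDimensional K⟮x⟯ F] [CharZero K]

theorem charZero_Rx : CharZero (Rx K x) :=
  charZero_of_injective_algebraMap (algebraMap K (Rx K x)).injective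

theorem perfectField_fractionRing_Rx : PerfectField (FractionRing (Rx K x)) := by
  haveI := charZero_Rx K x
  infer_instance

/-- The height-one prime `(x - c)` of `K[x]`. -/
def pcH (c : K) : HeightOneSpectrum (Rx K x) where
  asIdeal := pc K x c
  isPrime := (pc_isMaximal K x c).isPrime
  ne_bot := pc_ne_bot K x c

/-- `p(x)` as an element of `K[x] ⊆ F`. -/
def polyR (p : K[X]) : Rx K x := Polynomial.algEquivOfTranscendental K x hx.out p

theorem coe_polyR (p : K[X]) : ((polyR K x p : Rx K x) : F) = aeval x p := by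
  simp [polyR]

theorem polyR_ne_zero {p : K[X]} (hp : p ≠ 0) : polyR K x p ≠ 0 := by
  intro h
  apply hp
  exact (Polynomial.algEquivOfTranscendental K x hx.out).injective (by simpa [polyR] using h)

theorem polyR_X_sub_C (c : K) : polyR K x (X - C c) = xsubR K x c := by
  apply Subtype.ext
  rw [coe_polyR]
  simp [xsubR]

theorem polyR_mul (p q : K[X]) : polyR K x (p * q) = polyR K x p * polyR K x q := by
  simp [polyR]

theorem polyR_pow (p : K[X]) (n : ℕ) : polyR K x (p ^ n) = polyR K x p ^ n := by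
  simp [polyR]

/-- The order of `p(x)` at the prime `(x - c)` of `K[x]` is the root multiplicity. -/
theorem ordV_polyR (c : K) {p : K[X]} (hp : p ≠ 0) :
    ordV (pcH K x c) K⟮x⟯ (algebraMap (Rx K x) K⟮x⟯ (polyR K x p)) = p.rootMultiplicity c := by
  obtain ⟨g, hg, hndvd⟩ := Polynomial.exists_eq_pow_rootMultiplicity_mul_and_not_dvd p hp c
  have hg0 : g ≠ 0 := by
    rintro rfl
    rw [mul_zero] at hg
    exact hp hg
  have hinj : Function.Injective (algebraMap (Rx K x) K⟮x⟯) := IsFractionRing.injective _ _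
  have h1 : algebraMap (Rx K x) K⟮x⟯ (xsubR K x c) ≠ 0 :=
    (map_ne_zero_iff _ hinj).mpr (xsubR_ne_zero K x c)
  have h2 : algebraMap (Rx K x) K⟮x⟯ (polyR K x g) ≠ 0 :=
    (map_ne_zero_iff _ hinj).mpr (polyR_ne_zero K x hg0)
  have hx1 : ordV (pcH K x c) K⟮x⟯ (algebraMap (Rx K x) K⟮x⟯ (xsubR K x c)) = 1 := by
    unfold ordV
    rw [HeightOneSpectrum.valuation_of_algebraMap,
      HeightOneSpectrum.intValuation_singleton (pcH K x c) (xsubR_ne_zero K x c) rfl,
      WithZero.log_exp, neg_neg]
  have hx2 : ordV (pcH K x c) K⟮x⟯ (algebraMap (Rx K x) K⟮x⟯ (polyR K x g)) = 0 := by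
    unfold ordV
    rw [HeightOneSpectrum.valuation_of_algebraMap,
      HeightOneSpectrum.intValuation_eq_one_iff.mpr, WithZero.log_one, neg_zero]
    intro hmem
    apply hndvd
    have hmem' : polyR K x g ∈ Ideal.span {xsubR K x c} := hmem
    rw [Ideal.mem_span_singleton, ← polyR_X_sub_C] at hmem'
    obtain ⟨r, hr⟩ := hmem'
    obtain ⟨r', rfl⟩ := (Polynomial.algEquivOfTranscendental K x hx.out).surjective r
    refine ⟨r', ?_⟩
    apply (Polynomial.algEquivOfTranscendental K x hx.out).injective
    rw [map_mul]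
    exact hr
  conv_lhs => rw [hg]
  rw [polyR_mul, polyR_pow, polyR_X_sub_C, map_mul, map_pow, ordV_mul _ (pow_ne_zero _ h1) h2,
    ordV_pow, hx1, hx2]
  ring

variable {K x}

theorem mem_primesAbove_iff (c : K) (v : HeightOneSpectrum (Bx K x)) :
    v ∈ primesAbove (Bx K x) (pcH K x c) ↔ xsubB K x c ∈ v.asIdeal := by
  constructor
  · intro hv
    have hv' : v.asIdeal.under (Rx K x) = pc K x c := hv
    haveI : v.asIdeal.LiesOver (pc K x c) := (Ideal.liesOver_iff _ _).mpr hv'.symm
    exact mem_of_liesOver c v.asIdeal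
  · intro hv
    haveI := v.isPrime
    have := liesOver_of_mem c v.asIdeal hv
    exact ((Ideal.liesOver_iff _ _).mp this).symm

/-- The sum over the primes of the chart above `(x - c)` is the sum over the places over `c`. -/
theorem sum_primesAbove_eq [IsAlgClosed K] (c : K) {f : F} (hf : f ≠ 0) :
    ∑ P ∈ (finite_primesAbove (B := Bx K x) (pcH K x c)).toFinset,
        (P.asIdeal.inertiaDeg (Rx K x) : ℤ) * ordV P F f =
      ∑ P ∈ (finite_over' K x c).toFinset, P.ord f := by
  refine Finset.sum_bij (fun v _ => chartPlace K x v) ?_ ?_ ?_ ?_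
  · intro v hv
    rw [Set.Finite.mem_toFinset] at hv ⊢
    exact (chartPlace_over_iff v c).mpr ((mem_primesAbove_iff c v).mp hv)
  · intro v _ w _ h
    exact chartPlace_injective h
  · intro P hP
    rw [Set.Finite.mem_toFinset] at hP
    have hP' : 0 < P.ord (x - algebraMap K F c) := hP
    refine ⟨chartPrime P (x_mem_of_over P hP'), ?_, chartPlace_chartPrime P _⟩
    rw [Set.Finite.mem_toFinset, mem_primesAbove_iff, ← chartPlace_over_iff,
      chartPlace_chartPrime]
    exact hP'
  · intro v hv
    rw [Set.Finite.mem_toFinset] at hv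
    have hmem := (mem_primesAbove_iff c v).mp hv
    haveI := v.isPrime
    haveI : v.asIdeal.LiesOver (pc K x c) := liesOver_of_mem c v.asIdeal hmem
    rw [inertiaDeg_eq_one c v.asIdeal, Nat.cast_one, one_mul, chartPlace_ord v hf]
    rfl

variable (K x) in
/-- **FIB5, NORM-ORDER** (`Fact` form, sum over the finite set of places over `c`). -/
theorem norm_order' [IsAlgClosed K] {f : F} (hf : f ≠ 0) (p q : K[X]) (hq : q ≠ 0)
    (h : (Algebra.norm K⟮x⟯ f : F) * aeval x q = aeval x p) (c : K) :
    (p.rootMultiplicity c : ℤ) - q.rootMultiplicity c =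
      ∑ P ∈ (finite_over' K x c).toFinset, P.ord f := by
  haveI := perfectField_fractionRing_Rx K x
  haveI : IsIntegralClosure (↥(Bx K x)) (↥(Rx K x)) F := integralClosure.isIntegralClosure _ _
  haveI : IsScalarTower (↥(Rx K x)) (↥(Bx K x)) F := Subalgebra.isScalarTower_mid _
  have hN : Algebra.norm K⟮x⟯ f ≠ 0 := Algebra.norm_ne_zero_iff.mpr hf
  have hqx : aeval x q ≠ 0 := fun h0 => hq ((transcendental_iff.mp hx.out) q h0)
  have hp : p ≠ 0 := by
    rintro rfl
    rw [map_zero] at h
    rcases mul_eq_zero.mp h with h1 | h1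
    · exact hN (by exact_mod_cast h1)
    · exact hqx h1
  -- the identity inside `K(x)`
  have hL : Algebra.norm K⟮x⟯ f * algebraMap (Rx K x) K⟮x⟯ (polyR K x q) =
      algebraMap (Rx K x) K⟮x⟯ (polyR K x p) := by
    apply Subtype.ext
    have h1 : ((algebraMap (Rx K x) K⟮x⟯ (polyR K x q) : K⟮x⟯) : F) = aeval x q := by
      rw [← coe_polyR K x q]; rfl
    have h2 : ((algebraMap (Rx K x) K⟮x⟯ (polyR K x p) : K⟮x⟯) : F) = aeval x p := by
      rw [← coe_polyR K x p]; rfl
    rw [MulMemClass.coe_mul, h1, h2]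
    exact h
  have hinj : Function.Injective (algebraMap (Rx K x) K⟮x⟯) := IsFractionRing.injective _ _
  have hq0 : algebraMap (Rx K x) K⟮x⟯ (polyR K x q) ≠ 0 :=
    (map_ne_zero_iff _ hinj).mpr (polyR_ne_zero K x hq)
  have key := congrArg (ordV (pcH K x c) K⟮x⟯) hL
  rw [ordV_mul _ hN hq0, ordV_polyR K x c hq, ordV_polyR K x c hp,
    ordV_norm (R := Rx K x) (B := Bx K x) (L := K⟮x⟯) (F := F) (pcH K x c) hf,
    sum_primesAbove_eq c hf] at key
  linarith

end

section Final

variable {K F : Type*} [Field K] [Field F] [Algebra K F] (x : F) [CharZero K]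
  [FiniteDimensional K⟮x⟯ F]

/-- **FIB5, NORM-ORDER**: if `N_{F/K(x)}(f) * q(x) = p(x)` then the order of the norm at `x = c`
(root multiplicity of `p` minus that of `q`) is the sum of the orders of `f` at the places
over `c`.  Sum over the finite set `(H42.finite_over x hx c).toFinset`. -/
theorem norm_order_toFinset [IsAlgClosed K] (hx : Transcendental K x) {f : F} (hf : f ≠ 0)
    (p q : K[X]) (hq : q ≠ 0) (h : (Algebra.norm K⟮x⟯ f : F) * aeval x q = aeval x p) (c : K) :
    (p.rootMultiplicity c : ℤ) - q.rootMultiplicity c =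
      ∑ P ∈ (Fermat.Agent.S18.H42.finite_over x hx c).toFinset, P.ord f := by
  haveI : Fact (Transcendental K x) := ⟨hx⟩
  exact norm_order' K x hf p q hq h c

/-- **FIB5, NORM-ORDER** (verbatim shape of #1232 / #1359 (d), as a `finsum`). -/
theorem norm_order [IsAlgClosed K] (hx : Transcendental K x) {f : F} (hf : f ≠ 0)
    (p q : K[X]) (hq : q ≠ 0) (h : (Algebra.norm K⟮x⟯ f : F) * aeval x q = aeval x p) (c : K) :
    (p.rootMultiplicity c : ℤ) - q.rootMultiplicity c =
      ∑ᶠ P ∈ {P : Place K F | 0 < P.ord (x - algebraMap K F c)}, P.ord f := by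
  rw [finsum_mem_eq_finite_toFinset_sum _ (Fermat.Agent.S18.H42.finite_over x hx c)]
  exact norm_order_toFinset x hx hf p q hq h c

end Final

end Fermat.Agent.S18.H53
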